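import Mathlib.Computability.Primrec.List
import Mathlib.ModelTheory.Definability
import Mathlib.ModelTheory.Encoding

/-!
# The language of arithmetic and the diagonal sentences

A formula with one bound variable is put at a numeral by the prefix "for all `x`, if `x` is the
numeral then", so its code grows by a prefix and nothing is substituted in it.
-/

set_option autoImplicit false

namespace FA.ArithmeticTruth

open FirstOrder Language

/-- The function symbols of arithmetic: `0` and `1`, `+` and `*`. -/
abbrev ArithFunctions : ℕ → Type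
  | 0 => Fin 2
  | 1 => Empty
  | 2 => Fin 2
  | _ + 3 => Empty

/-- The language of `0`, `1`, `+` and `*`. -/
def arithLanguage : Language :=
  ⟨ArithFunctions, fun _ => Empty⟩

instance instEncodableArithFunctions : ∀ k, Encodable (arithLanguage.Functions k)
  | 0 => inferInstanceAs (Encodable (Fin 2))
  | 1 => inferInstanceAs (Encodable Empty)
  | 2 => inferInstanceAs (Encodable (Fin 2))
  | _ + 3 => inferInstanceAs (Encodable Empty)

instance instEncodableArithRelations (k : ℕ) : Encodable (arithLanguage.Relations k) :=
  inferInstanceAs (Encodable Empty)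

/-- The natural numbers as a structure. -/
instance natStructure : arithLanguage.Structure ℕ where
  funMap {k} := match k with
    | 0 => fun (i : Fin 2) _ => ![0, 1] i
    | 1 => fun f _ => f.elim
    | 2 => fun (i : Fin 2) v => ![v 0 + v 1, v 0 * v 1] i
    | _ + 3 => fun f _ => f.elim
  RelMap r _ := r.elim

/-- The code of a sentence: Mathlib's list of symbols, with the standard encoding. -/
def sentenceCode (φ : arithLanguage.Sentence) : ℕ :=
  Encodable.encode (BoundedFormula.listEncode φ)

theorem sentenceCode_injective : Function.Injective sentenceCode := by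
  intro φ ψ h
  have h1 := BoundedFormula.listEncode_sigma_injective (α := Empty) (a₁ := ⟨0, φ⟩) (a₂ := ⟨0, ψ⟩)
    (Encodable.encode_injective h)
  simpa using h1

/-- The codes of the true sentences. -/
def truth : Set ℕ :=
  {k | ∃ φ : arithLanguage.Sentence, k = sentenceCode φ ∧ ℕ ⊨ φ}

variable {α : Type}

/-- Zero. -/
def zeroTerm : arithLanguage.Term α :=
  Term.func (L := arithLanguage) (l := 0) (0 : Fin 2) Fin.elim0

/-- One. -/
def oneTerm : arithLanguage.Term α :=
  Term.func (L := arithLanguage) (l := 0) (1 : Fin 2) Fin.elim0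

/-- A sum. -/
def addTerm (s t : arithLanguage.Term α) : arithLanguage.Term α :=
  Term.func (L := arithLanguage) (l := 2) (0 : Fin 2) ![s, t]

/-- A product. -/
def mulTerm (s t : arithLanguage.Term α) : arithLanguage.Term α :=
  Term.func (L := arithLanguage) (l := 2) (1 : Fin 2) ![s, t]

/-- A numeral. -/
def numeral : ℕ → arithLanguage.Term α
  | 0 => zeroTerm
  | n + 1 => addTerm oneTerm (numeral n)

@[simp]
theorem realize_zeroTerm (v : α → ℕ) : (zeroTerm : arithLanguage.Term α).realize v = 0 :=
  rfl

@[simp]
theorem realize_oneTerm (v : α → ℕ) : (oneTerm : arithLanguage.Term α).realize v = 1 :=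
  rfl

@[simp]
theorem realize_addTerm (s t : arithLanguage.Term α) (v : α → ℕ) :
    (addTerm s t).realize v = s.realize v + t.realize v :=
  rfl

@[simp]
theorem realize_mulTerm (s t : arithLanguage.Term α) (v : α → ℕ) :
    (mulTerm s t).realize v = s.realize v * t.realize v :=
  rfl

@[simp]
theorem realize_numeral (v : α → ℕ) :
    ∀ n, (numeral n : arithLanguage.Term α).realize v = n
  | 0 => rfl
  | n + 1 => by rw [numeral, realize_addTerm, realize_oneTerm, realize_numeral v n, add_comm]

/-- The sentence of a formula at a numeral. -/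
def instanceSentence (φ : arithLanguage.BoundedFormula Empty 1) (n : ℕ) :
    arithLanguage.Sentence :=
  (BoundedFormula.imp (.equal (.var (.inr 0)) (numeral n)) φ).all

theorem realize_instanceSentence (φ : arithLanguage.BoundedFormula Empty 1) (n : ℕ) :
    ℕ ⊨ instanceSentence φ n ↔ φ.Realize (default : Empty → ℕ) ![n] := by
  have e : ∀ (v : Fin 0 → ℕ) (x : ℕ), Fin.snoc v x = ![x] := fun v x => funext fun i => by
    simp [Fin.fin_one_eq_zero i, Fin.snoc]
  refine ⟨fun h => ?_, fun h x hx => ?_⟩
  · have h1 := h n (by simp [BoundedFormula.Realize, e])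
    rw [e] at h1
    convert h1 using 2
  · simp only [BoundedFormula.Realize, Term.realize_var, Sum.elim_inr, realize_numeral, e] at hx
    obtain rfl : x = n := by simpa using hx
    rw [e]
    convert h using 2

/-- The symbols of a numeral. -/
theorem listEncode_numeral : ∀ n : ℕ, (numeral n : arithLanguage.Term α).listEncode =
    (List.replicate n [Sum.inr ⟨2, (0 : Fin 2)⟩, Sum.inr ⟨0, (1 : Fin 2)⟩]).flatten ++
      [Sum.inr ⟨0, (0 : Fin 2)⟩]
  | 0 => rfl
  | n + 1 => by
    rw [List.replicate_succ, List.flatten_cons, List.append_assoc, ← listEncode_numeral n]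
    simp [numeral, addTerm, oneTerm, Term.listEncode, List.finRange_succ]

/-- The code of a formula at a numeral, from the code of the formula. -/
def instanceCode (k n : ℕ) : ℕ :=
  let cons : ℕ → ℕ → ℕ := fun a acc => (Nat.pair a acc).succ
  cons (Encodable.encode (Sum.inr (Sum.inr 1) :
      (Σ k, arithLanguage.Term (Empty ⊕ Fin k)) ⊕ ((Σ n, arithLanguage.Relations n) ⊕ ℕ)))
    (cons (Encodable.encode (Sum.inr (Sum.inr 0) :
        (Σ k, arithLanguage.Term (Empty ⊕ Fin k)) ⊕ ((Σ n, arithLanguage.Relations n) ⊕ ℕ)))
      (cons (Encodable.encode (Sum.inl ⟨1, .var (.inr 0)⟩ :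
          (Σ k, arithLanguage.Term (Empty ⊕ Fin k)) ⊕ ((Σ n, arithLanguage.Relations n) ⊕ ℕ)))
        (cons (2 * Nat.pair 1 (Encodable.encode (numeral n :
            arithLanguage.Term (Empty ⊕ Fin 1)))) k)))

theorem sentenceCode_instance (φ : arithLanguage.BoundedFormula Empty 1) (n : ℕ) :
    sentenceCode (instanceSentence φ n) = instanceCode (Encodable.encode φ.listEncode) n :=
  rfl

theorem primrec_instanceCode : Primrec₂ instanceCode := by
  have hnum : Primrec fun n : ℕ =>
      Encodable.encode (numeral n : arithLanguage.Term (Empty ⊕ Fin 1)) := by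
    let P : List ((Empty ⊕ Fin 1) ⊕ Σ i, arithLanguage.Functions i) :=
      [Sum.inr ⟨2, (0 : Fin 2)⟩, Sum.inr ⟨0, (1 : Fin 2)⟩]
    let z : (Empty ⊕ Fin 1) ⊕ Σ i, arithLanguage.Functions i := Sum.inr ⟨0, (0 : Fin 2)⟩
    refine (Primrec.nat_rec₁ (Encodable.encode [z])
      (f := fun _ acc => (Nat.pair (Encodable.encode (P[0]'(by simp [P])))
        (Nat.pair (Encodable.encode (P[1]'(by simp [P]))) acc).succ).succ)
      (Primrec.succ.comp (Primrec₂.natPair.comp (Primrec.const _)
        (Primrec.succ.comp (Primrec₂.natPair.comp (Primrec.const _) Primrec.snd)))).to₂).of_eq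
      fun n => ?_
    change _ = Encodable.encode (numeral n : arithLanguage.Term (Empty ⊕ Fin 1)).listEncode
    rw [listEncode_numeral]
    induction n with
    | zero => rfl
    | succ n ih =>
      rw [List.replicate_succ, List.flatten_cons, List.append_assoc]
      simp only [List.cons_append, List.nil_append, Encodable.encode_list_cons, ← ih]
      rfl
  have hc : Primrec₂ fun a acc : ℕ => (Nat.pair a acc).succ :=
    (Primrec.succ.comp (Primrec₂.natPair.comp Primrec.fst Primrec.snd)).to₂
  exact (hc.comp (Primrec.const _) (hc.comp (Primrec.const _) (hc.comp (Primrec.const _)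
    (hc.comp (Primrec.nat_mul.comp (Primrec.const 2)
      (Primrec₂.natPair.comp (Primrec.const 1) (hnum.comp Primrec.snd))) Primrec.fst)))).to₂

end FA.ArithmeticTruth
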