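import Fermat.Agent.Hilbert10.Quartic
import Fermat.Agent.ArithmeticTruth.Language

/-!
# Diophantine sets are definable

A polynomial with integer coefficients is a difference of two terms of arithmetic, so a Diophantine
set is given by an existential equation.
-/

set_option autoImplicit false

namespace FA.ArithmeticTruth

open FirstOrder Language

/-- A polynomial function is a difference of two terms. -/
theorem exists_terms {γ : Type} (q : Poly γ) : ∃ a b : arithLanguage.Term γ,
    ∀ x : γ → ℕ, q x + ((b.realize x : ℕ) : ℤ) = ((a.realize x : ℕ) : ℤ) := by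
  induction q using Poly.induction with
  | H1 i => exact ⟨.var i, zeroTerm, fun x => by simp⟩
  | H2 z => exact ⟨numeral z.toNat, numeral (-z).toNat, fun x => by simp; omega⟩
  | H3 f g hf hg =>
    obtain ⟨a, b, h⟩ := hf
    obtain ⟨c, d, h'⟩ := hg
    refine ⟨addTerm a d, addTerm b c, fun x => ?_⟩
    simp only [Poly.sub_apply, realize_addTerm, Nat.cast_add, ← h, ← h']
    ring
  | H4 f g hf hg =>
    obtain ⟨a, b, h⟩ := hf
    obtain ⟨c, d, h'⟩ := hg
    refine ⟨addTerm (mulTerm a c) (mulTerm b d), addTerm (mulTerm a d) (mulTerm b c), fun x => ?_⟩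
    simp only [Poly.mul_apply, realize_addTerm, realize_mulTerm, Nat.cast_add, Nat.cast_mul, ← h,
      ← h']
    ring

/-- A Diophantine set is given by an existential equation. -/
theorem exists_equation {α : Type} {S : Set (α → ℕ)} (hS : Dioph S) :
    ∃ (β : Type) (_ : Finite β) (a b : arithLanguage.Term (α ⊕ β)),
      ∀ v, v ∈ S ↔ (Formula.iExs β (Term.equal a b)).Realize v := by
  obtain ⟨β, iβ, p, hp⟩ := Hilbert10.exists_fintype_rep hS
  obtain ⟨a, b, h⟩ := exists_terms p
  refine ⟨β, inferInstance, a, b, fun v => (hp v).trans ?_⟩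
  simp only [Formula.realize_iExs, Formula.realize_equal]
  refine exists_congr fun t => ?_
  have := h (Sum.elim v t)
  omega

/-- A formula in one bound variable defines a set. -/
def Defines (φ : arithLanguage.BoundedFormula Empty 1) (S : Set ℕ) : Prop :=
  ∀ n, φ.Realize (default : Empty → ℕ) ![n] ↔ n ∈ S

/-- A formula with one bound variable in place of one free variable. -/
def bindVar (φ : arithLanguage.Formula (Fin 1)) : arithLanguage.BoundedFormula Empty 1 :=
  BoundedFormula.relabel (fun _ => (Sum.inr 0 : Empty ⊕ Fin 1)) φ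

theorem realize_bindVar (φ : arithLanguage.Formula (Fin 1)) (v : Empty → ℕ) (n : ℕ) :
    (bindVar φ).Realize v ![n] ↔ φ.Realize ![n] := by
  refine BoundedFormula.realize_relabel.trans (iff_of_eq (congrArg₂ _ ?_ (Subsingleton.elim _ _)))
  funext i
  rw [Fin.fin_one_eq_zero i]
  rfl

/-- Definability in Mathlib's sense gives a formula in one bound variable. -/
theorem exists_defines {S : Set ℕ}
    (h : (∅ : Set ℕ).Definable arithLanguage {v : Fin 1 → ℕ | v 0 ∈ S}) :
    ∃ φ, Defines φ S := by
  obtain ⟨φ, hφ⟩ := Set.empty_definable_iff.1 h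
  exact ⟨bindVar φ, fun n => (realize_bindVar φ _ n).trans (Set.ext_iff.1 hφ ![n]).symm⟩

theorem dioph_rePred {α : Type} {p : ℕ → Prop} (hp : REPred p) {g : (α → ℕ) → ℕ}
    (dg : Dioph.DiophFn g) : Dioph {v | p (g v)} := by
  have h : Nat.Partrec fun a => (Part.assert (p a) fun _ => Part.some ()).map fun _ => 0 :=
    Partrec.nat_iff.1 (hp.map (Computable.const 0).to₂)
  refine Dioph.ext (Hilbert10.partrec_dioph h dg (Hilbert10.number_dioph 0)) fun v => ?_
  simp

/-- The graph of a computable function is given by a formula in two bound variables. -/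
theorem exists_graph {f : ℕ → ℕ} (hf : Computable f) :
    ∃ D : arithLanguage.BoundedFormula Empty 2,
      ∀ x y : ℕ, D.Realize (default : Empty → ℕ) ![x, y] ↔ f x = y := by
  have hR : REPred fun q : ℕ => f q.unpair.1 = q.unpair.2 :=
    ComputablePred.to_re (ComputablePred.computable_iff.2
      ⟨fun q => decide (f q.unpair.1 = q.unpair.2), (Primrec.eq.decide.to_comp.comp
        (hf.comp (Computable.fst.comp Computable.unpair)) (Computable.snd.comp Computable.unpair)),
        funext fun q => by simp⟩)
  obtain ⟨β, iβ, a, b, h⟩ := exists_equation (dioph_rePred hR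
    (Hilbert10.pair_dioph (Dioph.proj_dioph (0 : Fin 2)) (Dioph.proj_dioph (1 : Fin 2))))
  refine ⟨BoundedFormula.relabel (fun i => (Sum.inr i : Empty ⊕ Fin 2))
    (Formula.iExs β (Term.equal a b)), fun x y => ?_⟩
  refine BoundedFormula.realize_relabel.trans ?_
  have h' := h ![x, y]
  simp only [Set.mem_ofPred_eq, Nat.unpair_pair, Matrix.cons_val_zero, Matrix.cons_val_one] at h'
  refine Iff.trans (iff_of_eq (congrArg₂ _ ?_ (Subsingleton.elim _ _))) h'.symm
  rfl

end FA.ArithmeticTruth
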